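import Fermat.Agent.S21.H21.Primitive
import Fermat.Agent.S21.H86.Parabolic
import Fermat.Agent.S21.H88.Inj
import Fermat.Agent.S21.H72.ParabolicGenus
import Fermat.Agent.S21.H99.Assembly
import Fermat.Agent.S20.H77.Index
import Fermat.Agent.S20.H77.FixedPoints
import Fermat.Agent.S20.H77.Cusps

/-!
# S21 (Eichler–Shimura for the period map), reduced to the dimension formula S20

Everything except `dim S₂(Γ₀(N)) = genusFormula N` is proved:

* existence of the equivariant primitive and linearity of the period map (`H21.Primitive`),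
* `range ≤ parabolicHoms` (`H86.Parabolic`),
* injectivity by the maximum modulus principle on `X₀(N)` (`H88.Inj`),
* `dim parabolicHoms ≤ 2 * genusFormula N` (`H72.ParabolicGenus` and the coset combinatorics
  `S20.H77`).
-/

set_option autoImplicit false

open CongruenceSubgroup ModularCurve ModularCurve.Period
open scoped MatrixGroups

namespace Fermat.Agent.S21.H21

/-- The period pairing is injective (unconditionally). -/
theorem periodHomPair_injective (N : ℕ) [NeZero N] : Function.Injective (periodHomPair N) :=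
  H88.injective_periodHomPair N (existsPeriodMapLinear N) (exists_hasEquivariantPrimitive N)

/-- The parabolic homomorphisms of `Γ₀(N)` form a finite dimensional space. -/
theorem finite_parabolicHoms (N : ℕ) [NeZero N] :
    Module.Finite ℂ (parabolicHoms ℂ (Gamma0 N) ℂ) :=
  H72.finite_parabolicHoms (Gamma0 N) (H72.neg_one_mem_Gamma0 N)

/-- `dim Hom_par(Γ₀(N), ℂ) ≤ 2 g(N)` (unconditionally). -/
theorem finrank_parabolicHoms_le (N : ℕ) [NeZero N] :
    (Module.finrank ℂ (parabolicHoms ℂ (Gamma0 N) ℂ) : ℚ) ≤ 2 * genusFormula N :=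
  H72.finrank_parabolicHoms_le_two_genus N (S20.H77.card_quotient_Gamma0 N)
    (S20.H77.card_fixedBy_S N) (S20.H77.card_fixedBy_ST N) (S20.H77.card_orbits_T N)

/-- The upper bound `dim S₂(Γ₀(N)) ≤ genusFormula N` (unconditionally; by-product of S21). -/
theorem finrank_cuspForm_le (N : ℕ) [NeZero N] :
    Module.Finite ℂ (CuspForm (Gamma0 N) 2) ∧
      (Module.finrank ℂ (CuspForm (Gamma0 N) 2) : ℚ) ≤ genusFormula N := by
  have hfin := finite_parabolicHoms N
  have hinj := periodHomPair_injective N
  have hrange := H86.range_periodHomPair_le N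
  let ψ : (CuspForm (Gamma0 N) 2 × CuspForm (Gamma0 N) 2) →ₗ[ℂ] parabolicHoms ℂ (Gamma0 N) ℂ :=
    (periodHomPair N).codRestrict _ (fun x => hrange (LinearMap.mem_range_self _ x))
  have hψ : Function.Injective ψ := fun x y hxy => hinj (congrArg Subtype.val hxy)
  have hfinVV : Module.Finite ℂ (CuspForm (Gamma0 N) 2 × CuspForm (Gamma0 N) 2) :=
    Module.Finite.of_injective ψ hψ
  have hfinV : Module.Finite ℂ (CuspForm (Gamma0 N) 2) :=
    Module.Finite.of_injective (LinearMap.inl ℂ _ (CuspForm (Gamma0 N) 2)) LinearMap.inl_injective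
  refine ⟨hfinV, ?_⟩
  have h1 : Module.finrank ℂ (CuspForm (Gamma0 N) 2 × CuspForm (Gamma0 N) 2)
      ≤ Module.finrank ℂ (parabolicHoms ℂ (Gamma0 N) ℂ) :=
    LinearMap.finrank_le_finrank_of_injective hψ
  rw [Module.finrank_prod] at h1
  have h2 := finrank_parabolicHoms_le N
  have h3 : (2 : ℚ) * Module.finrank ℂ (CuspForm (Gamma0 N) 2)
      ≤ Module.finrank ℂ (parabolicHoms ℂ (Gamma0 N) ℂ) := by
    exact_mod_cast (by omega : 2 * Module.finrank ℂ (CuspForm (Gamma0 N) 2)
      ≤ Module.finrank ℂ (parabolicHoms ℂ (Gamma0 N) ℂ))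
  linarith

/-- **S21 from S20**: Eichler–Shimura, given the dimension formula (only `≥` is needed). -/
theorem result_of_genus_le (N : ℕ) [NeZero N]
    (hS20 : genusFormula N ≤ (Module.finrank ℂ (CuspForm (Gamma0 N) 2) : ℚ)) :
    Function.Injective (periodHomPair N)
      ∧ LinearMap.range (periodHomPair N) = parabolicHoms ℂ (Gamma0 N) ℂ :=
  H99.eichlerShimura_of_parts N (periodHomPair_injective N) (H86.range_periodHomPair_le N)
    (finite_parabolicHoms N) (finrank_parabolicHoms_le N)
    (le_antisymm (finrank_cuspForm_le N).2 hS20)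

/-- **S21 from S20**: Eichler–Shimura, given the dimension formula. -/
theorem result_of_S20 (N : ℕ) [NeZero N]
    (hS20 : (Module.finrank ℂ (CuspForm (Gamma0 N) 2) : ℚ) = genusFormula N) :
    Function.Injective (periodHomPair N)
      ∧ LinearMap.range (periodHomPair N) = parabolicHoms ℂ (Gamma0 N) ℂ :=
  result_of_genus_le N hS20.ge

end Fermat.Agent.S21.H21
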