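import Mathlib
import Fermat.Prelude.Def_ModularCurve_PeriodHomPair
import Fermat.Prelude.Thm_Subgroup_IsArithmetic_exists_nat_mem_strictPeriods_conj
import Fermat.Agent.S22.H50.Bol

/-!
# S21, package A1A2: the equivariant primitive of a weight two cusp form

For every `f : CuspForm (Gamma0 N) 2` there is a unique `F` with
`ModularCurve.HasEquivariantPrimitive N f F`; consequently `ModularCurve.periodMap N` is
`ℂ`-linear (`ModularCurve.ExistsPeriodMapLinear N`) and can be computed from any such `F`.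
-/

open UpperHalfPlane hiding I
open Complex Filter Function CongruenceSubgroup ModularCurve ModularCurve.Period
open scoped Real Topology Manifold MatrixGroups ModularForm Pointwise
open Derivative Matrix.SpecialLinearGroup

set_option autoImplicit false

namespace Fermat.Agent.S21.H21

open Fermat.Agent.S22.H50

/-- The weight zero slash action of `SL(2, ℤ)` is composition with the Möbius action. -/
theorem slash_zero_apply (E : ℍ → ℂ) (γ : SL(2, ℤ)) (z : ℍ) :
    (E ∣[(0 : ℤ)] γ) z = E (γ • z) := by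
  simp [ModularForm.SL_slash_apply]

/-- Cusp forms on `Γ₀(N)` are `1`-periodic, holomorphic and vanish at `i∞`. -/
theorem isCuspPer_cuspForm {N : ℕ} {k : ℤ} (f : CuspForm (Gamma0 N) k) :
    IsCuspPer 1 (f : ℍ → ℂ) where
  per := by
    have := SlashInvariantFormClass.periodic_comp_ofComplex (h := 1) f
      (by simp [strictPeriods_Gamma0])
    simpa using this
  hol := CuspFormClass.holo f
  zero := OnePoint.isZeroAt_infty_iff.mp (CuspFormClass.zero_at_cusps f
    ((Gamma0 N).isCusp_of_mem_strictPeriods (h := 1) one_pos (by simp [strictPeriods_Gamma0])))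

/-- All `SL(2, ℤ)`-translates of a cusp form on `Γ₀(N)` are periodic (with a common period),
holomorphic and vanish at `i∞`. -/
theorem exists_isCuspPer_slash {N : ℕ} [NeZero N] {k : ℤ} (f : CuspForm (Gamma0 N) k) :
    ∃ M : ℕ, 0 < M ∧ ∀ δ : SL(2, ℤ), IsCuspPer (M : ℝ) ((f : ℍ → ℂ) ∣[k] δ) := by
  obtain ⟨M, hM, hper⟩ := Subgroup.IsArithmetic.exists_nat_mem_strictPeriods_conj
    ((Gamma0 N : Subgroup SL(2, ℤ)) : Subgroup (GL (Fin 2) ℝ))
  refine ⟨M, hM, fun δ => ?_⟩
  have hmem := hper δ⁻¹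
  rw [map_inv] at hmem
  refine ⟨?_, ?_, ?_⟩
  · exact SlashInvariantFormClass.periodic_comp_ofComplex
      (CuspForm.translate f (mapGL ℝ δ)) hmem
  · exact (CuspFormClass.holo f).slash k (mapGL ℝ δ)
  · exact CuspFormClass.zero_at_infty_slash f δ

theorem mdiff_slash_zero {E : ℍ → ℂ} (hE : MDiff E) (γ : SL(2, ℤ)) :
    MDiff (E ∣[(0 : ℤ)] γ) := by
  rw [ModularForm.SL_slash]
  exact hE.slash 0 _

/-- `D (E ∘ γ) = (D E) ∣[2] γ`. -/
theorem D_slash_zero {E : ℍ → ℂ} (hE : MDiff E) (γ : SL(2, ℤ)) :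
    D (E ∣[(0 : ℤ)] γ) = (D E) ∣[(2 : ℤ)] γ := by
  have h := normalizedDerivOfComplex_SL_slash (k := 0) hE (γ := γ)
  rw [h]
  funext z
  simp

/-- A function with `D`-derivative `f`, rescaled, has derivative `f`. -/
theorem hasDerivAt_of_D_eq {E f : ℍ → ℂ} (hE : MDiff E) (hD : D E = f) (τ : ℍ) :
    HasDerivAt ((fun z : ℍ => (2 * π * I)⁻¹ * E z) ∘ ofComplex) (f τ) (τ : ℂ) := by
  have hd : DifferentiableAt ℂ (E ∘ ofComplex) (τ : ℂ) := mdifferentiableAt_iff.mp (hE τ)
  have h1 := hd.hasDerivAt.const_mul ((2 * π * I)⁻¹)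
  have h2 : (2 * π * I)⁻¹ * deriv (E ∘ ofComplex) (τ : ℂ) = f τ := congrFun hD τ
  rw [h2] at h1
  exact h1

/-- **Existence** of the equivariant primitive. -/
theorem exists_hasEquivariantPrimitive (N : ℕ) [NeZero N] (f : CuspForm (Gamma0 N) 2) :
    ∃ F : ℍ → ℂ, HasEquivariantPrimitive N f F := by
  obtain ⟨E, hE, hDE⟩ := (isCuspPer_cuspForm f).exists_primitive one_pos
  refine ⟨fun z => (2 * π * I)⁻¹ * E z, hasDerivAt_of_D_eq hE.hol hDE, ?_, ?_, ?_⟩
  · have h : Tendsto E atImInfty (𝓝 0) := hE.zero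
    simpa using h.const_mul ((2 * π * I)⁻¹)
  · intro γ
    have hEs : MDiff (E ∣[(0 : ℤ)] (γ : SL(2, ℤ))) := mdiff_slash_zero hE.hol _
    have hP : MDiff (E ∣[(0 : ℤ)] (γ : SL(2, ℤ)) - E) := hEs.sub hE.hol
    have hslash : (f : ℍ → ℂ) ∣[(2 : ℤ)] (γ : SL(2, ℤ)) = f :=
      SlashInvariantFormClass.slash_action_eq f _ (Subgroup.mem_map_of_mem _ γ.2)
    have hDP : D (E ∣[(0 : ℤ)] (γ : SL(2, ℤ)) - E) = 0 := by
      rw [normalizedDerivOfComplex_sub _ _ hEs hE.hol, D_slash_zero hE.hol,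
        hDE, hslash, sub_self]
    obtain ⟨c, hc⟩ := const_of_D_eq_zero hP hDP
    refine ⟨(2 * π * I)⁻¹ * c, fun z => ?_⟩
    have := congrFun hc z
    simp only [Pi.sub_apply, slash_zero_apply] at this
    rw [← this]
    ring
  · intro δ
    obtain ⟨M, hM, hper⟩ := exists_isCuspPer_slash f
    have hM' : (0 : ℝ) < M := by exact_mod_cast hM
    obtain ⟨Eδ, hEδ, hDEδ⟩ := (hper δ).exists_primitive hM'
    have hEs : MDiff (E ∣[(0 : ℤ)] δ) := mdiff_slash_zero hE.hol _
    have hP : MDiff (E ∣[(0 : ℤ)] δ - Eδ) := hEs.sub hEδ.hol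
    have hDP : D (E ∣[(0 : ℤ)] δ - Eδ) = 0 := by
      rw [normalizedDerivOfComplex_sub _ _ hEs hEδ.hol, D_slash_zero hE.hol,
        hDE, hDEδ, sub_self]
    obtain ⟨c, hc⟩ := const_of_D_eq_zero hP hDP
    refine ⟨(2 * π * I)⁻¹ * c, ?_⟩
    have heq : (fun w : ℍ => (2 * π * I)⁻¹ * E (δ • w)) =
        fun w : ℍ => (2 * π * I)⁻¹ * (Eδ w + c) := by
      funext w
      have := congrFun hc w
      simp only [Pi.sub_apply, slash_zero_apply] at this
      rw [← this]
      ring
    rw [heq]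
    have h : Tendsto Eδ atImInfty (𝓝 0) := hEδ.zero
    simpa using (h.add_const c).const_mul ((2 * π * I)⁻¹)

/-- **Uniqueness** of the equivariant primitive. -/
theorem hasEquivariantPrimitive_unique {N : ℕ} {f : CuspForm (Gamma0 N) 2} {F G : ℍ → ℂ}
    (hF : HasEquivariantPrimitive N f F) (hG : HasEquivariantPrimitive N f G) : F = G := by
  have hd : ∀ w ∈ {z : ℂ | 0 < z.im}, HasDerivAt ((F - G) ∘ ofComplex) 0 w := by
    intro w hw
    have h1 := hF.1 ⟨w, hw⟩
    have h2 := hG.1 ⟨w, hw⟩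
    have h3 := h1.sub h2
    rw [sub_self] at h3
    exact h3
  have hdiff : DifferentiableOn ℂ ((F - G) ∘ ofComplex) {z : ℂ | 0 < z.im} := fun w hw =>
    (hd w hw).differentiableAt.differentiableWithinAt
  have hderiv : Set.EqOn (deriv ((F - G) ∘ ofComplex)) 0 {z : ℂ | 0 < z.im} := fun w hw =>
    (hd w hw).deriv
  have hconst : ∀ z : ℍ, (F - G) z = (F - G) UpperHalfPlane.I := by
    intro z
    have := isOpen_upperHalfPlaneSet.is_const_of_deriv_eq_zero
      (Convex.isPreconnected (convex_halfSpace_im_gt 0)) hdiff hderiv z.im_pos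
      UpperHalfPlane.I.im_pos
    rw [comp_apply, comp_apply, ofComplex_apply, ofComplex_apply] at this
    exact this
  have hlim : Tendsto (F - G) atImInfty (𝓝 0) := by
    have h := hF.2.1.sub hG.2.1
    rw [sub_zero] at h
    exact h
  have hlim' : Tendsto (fun _ : ℍ => (F - G) UpperHalfPlane.I) atImInfty (𝓝 0) :=
    hlim.congr hconst
  have h0 : (F - G) UpperHalfPlane.I = 0 := tendsto_const_nhds_iff.mp hlim'
  funext z
  have := hconst z
  rw [h0, Pi.sub_apply, sub_eq_zero] at this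
  exact this

/-- The period map is computed by any equivariant primitive, at any base point. -/
theorem periodMap_apply {N : ℕ} {f : CuspForm (Gamma0 N) 2} {F : ℍ → ℂ}
    (hF : HasEquivariantPrimitive N f F) (γ : Gamma0 N) (z : ℍ) :
    periodMap N f (Additive.ofMul γ) = F ((γ : SL(2, ℤ)) • z) - F z := by
  obtain ⟨F₀, h₀, hpm⟩ := periodMap_def N f hF
  obtain rfl : F₀ = F := hasEquivariantPrimitive_unique h₀ hF
  rw [hpm, IsEquivariantPrimitive.periodHom_apply]
  exact (h₀.2.2.1.sub_eq_period γ z).symm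

theorem hasEquivariantPrimitive_add {N : ℕ} {f g : CuspForm (Gamma0 N) 2} {F G : ℍ → ℂ}
    (hF : HasEquivariantPrimitive N f F) (hG : HasEquivariantPrimitive N g G) :
    HasEquivariantPrimitive N (f + g) (F + G) := by
  refine ⟨fun τ => ?_, ?_, fun γ => ?_, fun δ => ?_⟩
  · have := (hF.1 τ).add (hG.1 τ)
    exact this
  · have h := hF.2.1.add hG.2.1
    rw [add_zero] at h
    exact h
  · obtain ⟨c, hc⟩ := hF.2.2.1 γ
    obtain ⟨d, hd⟩ := hG.2.2.1 γ
    refine ⟨c + d, fun z => ?_⟩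
    rw [← hc z, ← hd z]
    simp only [Pi.add_apply]
    ring
  · obtain ⟨L, hL⟩ := hF.2.2.2 δ
    obtain ⟨L', hL'⟩ := hG.2.2.2 δ
    exact ⟨L + L', hL.add hL'⟩

theorem hasEquivariantPrimitive_smul {N : ℕ} {f : CuspForm (Gamma0 N) 2} {F : ℍ → ℂ} (a : ℂ)
    (hF : HasEquivariantPrimitive N f F) :
    HasEquivariantPrimitive N (a • f) (a • F) := by
  refine ⟨fun τ => ?_, ?_, fun γ => ?_, fun δ => ?_⟩
  · have := (hF.1 τ).const_mul a
    exact this
  · have h := hF.2.1.const_mul a
    rw [mul_zero] at h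
    exact h
  · obtain ⟨c, hc⟩ := hF.2.2.1 γ
    refine ⟨a * c, fun z => ?_⟩
    rw [← hc z]
    simp only [Pi.smul_apply, smul_eq_mul]
    ring
  · obtain ⟨L, hL⟩ := hF.2.2.2 δ
    exact ⟨a * L, hL.const_mul a⟩

/-- The period map is additive. -/
theorem periodMap_add (N : ℕ) [NeZero N] (f g : CuspForm (Gamma0 N) 2) :
    periodMap N (f + g) = periodMap N f + periodMap N g := by
  obtain ⟨F, hF⟩ := exists_hasEquivariantPrimitive N f
  obtain ⟨G, hG⟩ := exists_hasEquivariantPrimitive N g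
  refine AddMonoidHom.ext fun γ => ?_
  have h1 := periodMap_apply (hasEquivariantPrimitive_add hF hG) (Additive.toMul γ)
    UpperHalfPlane.I
  have h2 := periodMap_apply hF (Additive.toMul γ) UpperHalfPlane.I
  have h3 := periodMap_apply hG (Additive.toMul γ) UpperHalfPlane.I
  simp only [ofMul_toMul] at h1 h2 h3
  rw [AddMonoidHom.add_apply, h1, h2, h3]
  simp only [Pi.add_apply]
  ring

/-- The period map is homogeneous. -/
theorem periodMap_smul (N : ℕ) [NeZero N] (a : ℂ) (f : CuspForm (Gamma0 N) 2) :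
    periodMap N (a • f) = a • periodMap N f := by
  obtain ⟨F, hF⟩ := exists_hasEquivariantPrimitive N f
  refine AddMonoidHom.ext fun γ => ?_
  have h1 := periodMap_apply (hasEquivariantPrimitive_smul a hF) (Additive.toMul γ)
    UpperHalfPlane.I
  have h2 := periodMap_apply hF (Additive.toMul γ) UpperHalfPlane.I
  simp only [ofMul_toMul] at h1 h2
  rw [AddMonoidHom.smul_apply, h1, h2]
  simp only [Pi.smul_apply, smul_eq_mul]
  ring

/-- **Linearity** of the period map. -/
theorem existsPeriodMapLinear (N : ℕ) [NeZero N] : ExistsPeriodMapLinear N :=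
  ⟨{ toFun := periodMap N
     map_add' := periodMap_add N
     map_smul' := fun a f => by simpa using periodMap_smul N a f }, fun _ => rfl⟩

/-- The explicit formula for `periodHomPair`. -/
theorem periodHomPair_apply (N : ℕ) [NeZero N] (f g : CuspForm (Gamma0 N) 2) :
    periodHomPair N (f, g) =
      (periodMap N f + charInvolution N ℂ ℂ (periodMap N f)) +
      (periodMap N g - charInvolution N ℂ ℂ (periodMap N g)) := by
  obtain ⟨pml, hpml, hdef⟩ := periodHomPair_def N (existsPeriodMapLinear N)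
  rw [hdef]
  simp [LinearMap.coprod_apply, hpml]

end Fermat.Agent.S21.H21
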